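/-
S56 / F / Irr / SetupA : ingredients for `C.Setup` (tame characters in helper55's form).   (helper6)
TASKS  S56/F-Irr-Emb (`exists_emb`),  S56/F-Irr-Cyclo (`rd_theta_pow_eq_cyclo`),
       S56/F-Irr-Quad (`exists_quad`),  S56/F-Irr-Eig (`aeval_eigenvalue`).
-/
import Fermat.Agent.S56.F.C.Pi
import Fermat.Agent.S56.F.C.Rd
import Fermat.Agent.S36.Base.Residue
import Fermat.Agent.S55.Places.Cyclo

set_option autoImplicit false

noncomputable section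

namespace Fermat.Agent.S56.F.Irr

open Fermat.Agent.S55 Fermat.Agent.S55.Places ExtCitation Polynomial Fermat.Agent.S56.F.C

variable {p : ℕ} [Fact p.Prime] {k : Type} [Field k] [Algebra (ZMod p) k]

/-- the conclusion of `Tame.annihilate`, as a property of `(M, ϖ)`. -/
def Ann (p : ℕ) [Fact p.Prime] {k : Type} [Field k] (M : GQ →* M2 k) (ϖ : Qbar) : Prop :=
  ∀ τ ∈ Iq p, ∀ P : ℤ[X], nrm p (aeval (τ ϖ / ϖ) P) < 1 → aeval (M τ) P = 0

/-- `Om p` is algebraically closed (`S36.Base.isAlgClosed_residueField_of_isAlgClosed (padicPlace p)`; find the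
exact namespace in `S36/Base/Residue.lean`) of characteristic `p` (`residueKq_charP`, so
`ZMod.algebra (Om p) p`); `k` is algebraic over `ZMod p` (finite); `IsAlgClosed.lift`. -/
theorem exists_emb [Finite k] : Nonempty (k →+* Om p) := by
  have hAC : IsAlgClosed (Om p) :=
    Fermat.Agent.S36.Base.isAlgClosed_residueField_of_isAlgClosed (padicPlace p)
  let _ : Algebra (ZMod p) (Om p) := ZMod.algebra (Om p) p
  have hfin : Module.Finite (ZMod p) k := Module.Finite.of_finite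
  have halg : Algebra.IsAlgebraic (ZMod p) k := Algebra.IsAlgebraic.of_finite (ZMod p) k
  exact ⟨(IsAlgClosed.lift (R := ZMod p) (S := k) (M := Om p) : k →ₐ[ZMod p] Om p).toRingHom⟩

/-- **the cyclotomic character on inertia is `θ₂^(p+1)`.**   `ζ := zt p` (primitive `p`-th root of unity:
see `S55/Arith/Defs.lean` for `zeta p`), `a := (cycloChar p τ).val`, `τ ζ = ζ^a` (`cycloChar_spec`),
`λ := ζ - 1`, `|λ|^(p-1) = 1/p` (`nrm_one_sub_zeta`, `n = 0`), `ϖ₁ := ϖ^(p+1)`, `ϖ₁^(p-1) = -p`, so `|ϖ₁| = |λ|`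
(`pow_left_injective`), `u := λ/ϖ₁` has norm one, `|τ u - u| < 1` (`mem_Iq_iff`).
`τ λ / λ = 1 + ζ + … + ζ^(a-1)` (`geom_sum`) `≡ a` mod `𝔪` (`|ζ - 1| < 1`), and
`τ λ/λ = (τ u/u) (τ ϖ/ϖ)^(p+1)`.  Use `rd_mul`, `rd_pow`, `rd_natCast`, `rd_eq_iff`. -/
theorem rd_theta_pow_eq_cyclo {ϖ : Qbar} (hϖ : ϖ ^ (p ^ 2 - 1) = -(p : Qbar)) {τ : GQ}
    (hτ : τ ∈ Iq p) :
    rd p (τ ϖ / ϖ) ^ (p + 1) = ((((cycloChar p τ : (ZMod p)ˣ) : ZMod p).val : ℕ) : Om p) := by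
  have hp : p.Prime := Fact.out
  have hζ0 : IsPrimitiveRoot (zt p) p := IsPrimitiveRoot.coe_units_iff.2 (zeta_spec p)
  obtain ⟨ζ, hζdef⟩ : ∃ ζ : Qbar, ζ = zt p := ⟨_, rfl⟩
  have hζ : IsPrimitiveRoot ζ p := hζdef ▸ hζ0
  obtain ⟨a, ha⟩ : ∃ a : ℕ, a = ((cycloChar p τ : (ZMod p)ˣ) : ZMod p).val := ⟨_, rfl⟩
  have hτζ : τ ζ = ζ ^ a := by
    rw [hζdef, ha]
    exact cycloChar_spec p τ (zeta p) (zeta_spec p).pow_eq_one
  rw [← ha]
  have hϖ0 := pi_ne_zero hϖ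
  have hl0 : ζ - 1 ≠ 0 := sub_ne_zero.2 (hζ.ne_one hp.one_lt)
  have hp1 : p - 1 ≠ 0 := by
    have := hp.two_le
    omega
  have hln : nrm p (ζ - 1) ^ (p - 1) = (p : ℝ)⁻¹ := by
    have h := nrm_one_sub_zeta (p := p) (n := 0) (ζ := ζ) (by rwa [zero_add, pow_one])
    rwa [pow_zero, one_mul, nrm_sub_comm] at h
  have hϖ1n : nrm p (ϖ ^ (p + 1)) ^ (p - 1) = (p : ℝ)⁻¹ := by
    have e : (p + 1) * (p - 1) = p ^ 2 - 1 := by
      rw [← Nat.sq_sub_sq, one_pow]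
    rw [← nrm_pow, ← pow_mul, e, hϖ, nrm_neg, nrm_natCast_self]
  have heq : nrm p (ζ - 1) = nrm p (ϖ ^ (p + 1)) :=
    (pow_left_inj₀ (nrm_nonneg p _) (nrm_nonneg p _) hp1).1 (hln.trans hϖ1n.symm)
  have hl1 : nrm p (ζ - 1) < 1 := by
    by_contra hcon
    rw [not_lt] at hcon
    have h1 := one_le_pow₀ hcon (n := p - 1)
    rw [hln] at h1
    have h2 : (p : ℝ)⁻¹ < 1 := inv_lt_one_of_one_lt₀ (by exact_mod_cast hp.one_lt)
    linarith
  obtain ⟨u, hu⟩ : ∃ u : Qbar, u = (ζ - 1) / ϖ ^ (p + 1) := ⟨_, rfl⟩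
  have hu1 : nrm p u = 1 := by
    rw [hu, nrm_div, heq, div_self]
    exact ((nrm_pos_iff p).2 (pow_ne_zero _ hϖ0)).ne'
  have hrdu : rd p u ≠ 0 := fun h => by
    have h1 := (rd_eq_zero_iff hu1.le).1 h
    rw [hu1] at h1
    exact lt_irrefl _ h1
  have hζ1 : nrm p ζ = 1 := nrm_eq_one_of_pow_eq_one p hp.ne_zero hζ.pow_eq_one
  have hrdζ : rd p ζ = 1 := by
    rw [← rd_one, rd_eq_iff hζ1.le (by rw [nrm_one])]
    exact hl1
  have hS : ∀ n : ℕ, nrm p (∑ i ∈ Finset.range n, ζ ^ i) ≤ 1 ∧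
      rd p (∑ i ∈ Finset.range n, ζ ^ i) = (n : Om p) := by
    intro n
    induction n with
    | zero => simp [rd_zero]
    | succ n ih =>
      have h1 : nrm p (ζ ^ n) ≤ 1 := by rw [nrm_pow, hζ1, one_pow]
      rw [Finset.sum_range_succ]
      refine ⟨(nrm_add_le_max p _ _).trans (max_le ih.1 h1), ?_⟩
      rw [rd_add ih.1 h1, ih.2, rd_pow hζ1.le, hrdζ, one_pow, Nat.cast_succ]
  have key : u * ∑ i ∈ Finset.range a, ζ ^ i = τ u * (τ ϖ / ϖ) ^ (p + 1) := by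
    have h1 : τ (ζ - 1) = (ζ - 1) * ∑ i ∈ Finset.range a, ζ ^ i := by
      rw [map_sub, map_one, hτζ, mul_geom_sum]
    have hτϖ : τ ϖ ≠ 0 := (map_ne_zero τ).2 hϖ0
    rw [hu, map_div₀, map_pow, h1, div_pow]
    field_simp
  have h2 := congrArg (rd p) key
  rw [rd_mul hu1.le (hS a).1, (hS a).2,
    rd_mul (by rw [nrm_map_of_mem_Dq p (Iq_le_Dq p hτ), hu1])
      (by rw [nrm_pow, nrm_theta hϖ, one_pow]),
    rd_map_of_mem_Iq hτ, rd_pow (nrm_theta hϖ τ).le] at h2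
  exact (mul_left_cancel₀ hrdu h2).symm

/-- **an integral quadratic polynomial reducing to `(X - θ)(X - θ^p)`.**  `θ := rd p ξ`, `θ^(p²) = θ`;
`t := θ + θ^p` and `n := θ^(p+1)` satisfy `w^p = w` (char `p`: `add_pow_char`), hence are images of natural
numbers `t', n'` (`C.exists_zmod_of_pow_eq` with `ZMod.algebra (Om p) p`, `ZMod.natCast_zmod_val`).
`P := X^2 - t' X + n'`. -/
theorem exists_quad {ξ : Qbar} (hξ : ξ ^ (p ^ 2 - 1) = 1) :
    ∃ P : ℤ[X], nrm p (aeval ξ P) < 1 ∧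
      ∀ w : Om p, aeval w P = (w - rd p ξ) * (w - rd p ξ ^ p) := by
  have hp : p.Prime := Fact.out
  have hp2 : p ^ 2 - 1 ≠ 0 := by
    have : 2 ^ 2 ≤ p ^ 2 := Nat.pow_le_pow_left hp.two_le 2
    omega
  have hξn : nrm p ξ = 1 := nrm_eq_one_of_pow_eq_one p hp2 hξ
  set θ : Om p := rd p ξ with hθ
  have hθ1 : θ ^ (p ^ 2 - 1) = 1 := by
    rw [hθ, ← rd_pow hξn.le, hξ, rd_one]
  have hθ2 : θ ^ (p ^ 2) = θ := by
    have e : p ^ 2 = (p ^ 2 - 1) + 1 := by omega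
    rw [e, pow_succ, hθ1, one_mul]
  have hθ3 : (θ ^ p) ^ p = θ := by rw [← pow_mul, ← sq, hθ2]
  let _ : Algebra (ZMod p) (Om p) := ZMod.algebra (Om p) p
  have : NeZero p := ⟨hp.ne_zero⟩
  obtain ⟨t₀, ht₀⟩ := exists_zmod_of_pow_eq (p := p) (F := Om p) (w := θ + θ ^ p) (by
    rw [add_pow_char, hθ3, add_comm])
  obtain ⟨n₀, hn₀⟩ := exists_zmod_of_pow_eq (p := p) (F := Om p) (w := θ * θ ^ p) (by
    rw [mul_pow, hθ3, mul_comm])
  obtain ⟨t', ht⟩ : ∃ t' : ℕ, (t' : Om p) = θ + θ ^ p := ⟨t₀.val, by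
    rw [← ht₀, ← map_natCast (algebraMap (ZMod p) (Om p)), ZMod.natCast_zmod_val]⟩
  obtain ⟨n', hn⟩ : ∃ n' : ℕ, (n' : Om p) = θ * θ ^ p := ⟨n₀.val, by
    rw [← hn₀, ← map_natCast (algebraMap (ZMod p) (Om p)), ZMod.natCast_zmod_val]⟩
  refine ⟨X ^ 2 - C (t' : ℤ) * X + C (n' : ℤ), ?_, fun w => ?_⟩
  · have e : aeval ξ (X ^ 2 - C (t' : ℤ) * X + C (n' : ℤ) : ℤ[X])
        = ξ ^ 2 - (t' : Qbar) * ξ + (n' : Qbar) := by
      simp
    have h1 : nrm p (ξ ^ 2) ≤ 1 := by rw [nrm_pow, hξn, one_pow]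
    have h2 : nrm p ((t' : Qbar) * ξ) ≤ 1 := by
      rw [nrm_mul, hξn, mul_one]; exact nrm_natCast_le_one p _
    have h3 : nrm p (n' : Qbar) ≤ 1 := nrm_natCast_le_one p _
    have h4 : nrm p (ξ ^ 2 - (t' : Qbar) * ξ) ≤ 1 := (nrm_sub_le_max p _ _).trans (max_le h1 h2)
    have h5 : nrm p (ξ ^ 2 - (t' : Qbar) * ξ + (n' : Qbar)) ≤ 1 :=
      (nrm_add_le_max p _ _).trans (max_le h4 h3)
    rw [e, ← rd_eq_zero_iff h5, rd_add h4 h3, rd_sub h1 h2, rd_pow hξn.le,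
      rd_mul (nrm_natCast_le_one p _) hξn.le, rd_natCast, rd_natCast, ← hθ, ht, hn]
    ring
  · have e : aeval w (X ^ 2 - C (t' : ℤ) * X + C (n' : ℤ) : ℤ[X])
        = w ^ 2 - (t' : Om p) * w + (n' : Om p) := by
      simp
    rw [e, ht, hn]
    ring

/-- a root of the characteristic polynomial is a root of every annihilating polynomial
(eigenvector `v ≠ 0` of `A.mulVec` / `Matrix.toLin'`: `Module.End.hasEigenvalue_of_isRoot_charpoly`-type
lemmas, then `P(A) v = P(α) v`: `Module.End.aeval_apply_of_hasEigenvector`; or: `minpoly k A ∣ P.map`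
and charpoly and minpoly have the same roots). -/
theorem aeval_eigenvalue (A : M2 k) {α β : k} (hA : A.charpoly = (X - C α) * (X - C β))
    (P : ℤ[X]) (hP : aeval A P = 0) : aeval α P = 0 ∧ aeval β P = 0 := by
  have key : ∀ γ : k, A.charpoly.eval γ = 0 → aeval γ P = 0 := by
    intro γ hγ
    rw [Matrix.eval_charpoly] at hγ
    obtain ⟨v, hv0, hv⟩ := Matrix.exists_mulVec_eq_zero_iff.mpr hγ
    have hAv : A.mulVec v = γ • v := by
      rw [Matrix.sub_mulVec, sub_eq_zero] at hv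
      rw [← hv]
      ext i
      simp [Matrix.mulVec, dotProduct, Matrix.scalar_apply, Matrix.diagonal_apply]
    have hpow : ∀ n : ℕ, (A ^ n).mulVec v = γ ^ n • v := by
      intro n
      induction n with
      | zero => simp
      | succ n ih =>
        rw [pow_succ, ← Matrix.mulVec_mulVec, hAv, Matrix.mulVec_smul, ih, smul_smul, pow_succ,
          mul_comm]
    have hall : ∀ Q : ℤ[X], (aeval A Q).mulVec v = aeval γ Q • v := by
      intro Q
      induction Q using Polynomial.induction_on' with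
      | add a b ha hb => rw [map_add, map_add, Matrix.add_mulVec, add_smul, ha, hb]
      | monomial n a =>
        rw [aeval_monomial, aeval_monomial, ← Algebra.smul_def, ← Algebra.smul_def,
          Matrix.smul_mulVec, hpow, smul_assoc]
    have h1 := hall P
    rw [hP, Matrix.zero_mulVec] at h1
    rcases smul_eq_zero.mp h1.symm with h2 | h2
    · exact h2
    · exact absurd h2 hv0
  refine ⟨key α ?_, key β ?_⟩
  · rw [hA]; simp
  · rw [hA]; simp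

end Fermat.Agent.S56.F.Irr

end
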