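/-
S56 / F / Irr / Setup : `C.Setup p M ϖ` from the conclusion of `Tame.annihilate`.      (helper6)
-/
import Fermat.Agent.S56.F.Irr.SetupA

set_option autoImplicit false

noncomputable section

namespace Fermat.Agent.S56.F.Irr

open Fermat.Agent.S55 Fermat.Agent.S55.Places ExtCitation Polynomial Fermat.Agent.S56.F.C

variable {p : ℕ} [Fact p.Prime] {k : Type} [Field k] [Algebra (ZMod p) k]

omit [Algebra (ZMod p) k] in
/-- `M` is trivial on `IL`. -/
theorem Ann.ker {M : GQ →* M2 k} {ϖ : Qbar} (hA : Ann p M ϖ) (hϖ0 : ϖ ≠ 0) :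
    ∀ s ∈ IL p ϖ, M s = 1 := by
  intro s hs
  have h1 := hA s (mem_IL.1 hs).1 (X - 1) (by
    rw [(mem_IL.1 hs).2, div_self hϖ0]
    simp [nrm])
  simpa [sub_eq_zero] using h1

/-- `θ^(p-1) ≠ 1` for `θ` the reduction of a primitive `(p²-1)`-th root of unity. -/
theorem rd_pow_ne_one (hp2 : p ≠ 2) {ξ : Qbar} (hξ : IsPrimitiveRoot ξ (p ^ 2 - 1)) :
    rd p ξ ^ (p - 1) ≠ 1 := by
  intro h
  have hp : p.Prime := Fact.out
  have h2 : 2 ≤ p := hp.two_le
  have hn : nrm p ξ = 1 := nrm_eq_one_of_pow_eq_one p e_pos.ne' hξ.pow_eq_one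
  rw [← rd_pow hn.le, ← rd_one (p := p),
    rd_eq_iff (by rw [nrm_pow, hn, one_pow]) (by simp [nrm])] at h
  have h3 : ξ ^ (p - 1) = 1 :=
    eq_of_nrm_sub_lt_one (e_coprime (p := p)) (by rw [← pow_mul, mul_comm, pow_mul,
      hξ.pow_eq_one, one_pow]) (one_pow _) h
  have h4 := hξ.dvd_of_pow_eq_one _ h3
  have h5 : p - 1 < p ^ 2 - 1 := by
    have : p < p ^ 2 := by nlinarith
    omega
  exact absurd (Nat.le_of_dvd (by omega) h4) (not_le.2 h5)

theorem exists_setup [Finite k] (hp2 : p ≠ 2) (M : GQ →* M2 k) (hM : ResHyp p M) {ϖ : Qbar}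
    (hϖ : ϖ ^ (p ^ 2 - 1) = -(p : Qbar)) (hA : Ann p M ϖ) : Nonempty (Setup p M ϖ) := by
  obtain ⟨ι⟩ := exists_emb (p := p) (k := k)
  obtain ⟨g0, hg0, hprim⟩ := exists_prim (p := p) hϖ
  obtain ⟨α, β, hαβ⟩ := hM.split g0
  set ξ := g0 ϖ / ϖ with hξdef
  set θ := rd p ξ with hθdef
  obtain ⟨P, hP1, hP2⟩ := exists_quad (p := p) hprim.pow_eq_one
  have hPM := hA g0 hg0 P hP1
  obtain ⟨hPα, hPβ⟩ := aeval_eigenvalue (M g0) hαβ P hPM
  -- transport along ι
  have htr : ∀ x : k, aeval x P = 0 → (ι x - θ) * (ι x - θ ^ p) = 0 := by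
    intro x hx
    rw [← hP2]
    have := Polynomial.aeval_algHom_apply ι.toIntAlgHom x P
    rw [hx, map_zero] at this
    exact this
  have hια := htr α hPα
  have hιβ := htr β hPβ
  have hne := rd_pow_ne_one hp2 hprim
  have hθ0 : θ ≠ 0 := by
    intro h0
    apply hne
    exfalso
    have h1 : θ ^ (p ^ 2 - 1) = 1 := by
      rw [hθdef, ← rd_pow (nrm_theta hϖ g0).le, hprim.pow_eq_one, rd_one]
    rw [h0, zero_pow e_pos.ne'] at h1
    exact zero_ne_one h1
  -- determinant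
  have hdet : ι α * ι β = θ ^ (p + 1) := by
    have h1 : (M g0).det = α * β := by
      have h2 := Matrix.det_eq_sign_charpoly_coeff (M g0)
      rw [hαβ] at h2
      simp only [Fintype.card_fin] at h2
      rw [h2]
      simp [Polynomial.mul_coeff_zero]
    rw [hM.det] at h1
    rw [← map_mul, ← h1, hθdef, rd_theta_pow_eq_cyclo hϖ hg0]
    set c := ((cycloChar p g0 : (ZMod p)ˣ) : ZMod p) with hc
    have h3 : algebraMap (ZMod p) k c = ((c.val : ℕ) : k) := by
      conv_lhs => rw [← ZMod.natCast_zmod_val c]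
      rw [map_natCast]
    rw [h3, map_natCast]
  have hp1 : p + 1 = (p - 1) + 2 := by
    have := (Fact.out : p.Prime).two_le
    omega
  have hpp : p = (p - 1) + 1 := by
    have := (Fact.out : p.Prime).two_le
    omega
  have hinj : Function.Injective ι := ι.injective
  rcases mul_eq_zero.1 hια with h1 | h1 <;> rcases mul_eq_zero.1 hιβ with h2 | h2
  · -- (θ, θ)
    exfalso
    rw [sub_eq_zero] at h1 h2
    rw [h1, h2, hp1, pow_add, pow_two] at hdet
    exact hne (mul_right_cancel₀ (mul_ne_zero hθ0 hθ0) (by rw [one_mul]; exact hdet.symm))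
  · -- (θ, θ^p)
    rw [sub_eq_zero] at h1 h2
    have hβ : β = α ^ p := hinj (by rw [h2, map_pow, h1])
    exact ⟨⟨hϖ, hA.ker (pi_ne_zero hϖ), ι, g0, hg0, hprim, α, by rw [hαβ, hβ], h1⟩⟩
  · -- (θ^p, θ)
    rw [sub_eq_zero] at h1 h2
    have hα : α = β ^ p := hinj (by rw [h1, map_pow, h2])
    exact ⟨⟨hϖ, hA.ker (pi_ne_zero hϖ), ι, g0, hg0, hprim, β, by rw [hαβ, hα, mul_comm], h2⟩⟩
  · -- (θ^p, θ^p)
    exfalso
    rw [sub_eq_zero] at h1 h2
    rw [h1, h2] at hdet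
    have h3 : θ ^ p * θ ^ p = θ ^ (p - 1) * θ ^ (p + 1) := by
      rw [← pow_add, ← pow_add]
      congr 1
      omega
    rw [h3] at hdet
    exact hne (mul_right_cancel₀ (pow_ne_zero (p + 1) hθ0) (by rw [one_mul]; exact hdet))

end Fermat.Agent.S56.F.Irr

end
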