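/-
S56 / F / Irr / Main : the irreducible case of `Target.flat_finrank` (glue).        (helper74)

`flat_irr` = `Tame.annihilate_of_flat` (=> `Irr.Ann`) + `Irr.exists_setup` (=> `C.Setup`)
  + `Ram.exists_ord_defAct_top` + `K.noLevel` (=> `C.NoLevel ϖ z 2`, `C.NoLevel ϖ z (p+1)`)
  + `C.count_main`.
-/
import Fermat.Agent.S56.F.Irr.Setup
import Fermat.Agent.S56.F.K.Export
import Fermat.Agent.S56.F.C.Main
import Fermat.Agent.S56.F.Tame.Export
import Fermat.Agent.S56.F.Ram.Bridge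

set_option autoImplicit false

noncomputable section

namespace Fermat.Agent.S56.F.Irr

open Fermat.Agent.S55 Fermat.Agent.S55.Places ExtCitation Module Polynomial

variable {p : ℕ} [Fact p.Prime] {k : Type} [Field k] [Finite k] [Algebra (ZMod p) k]

/-- **the irreducible case of `Target.flat_finrank`.** -/
theorem flat_irr (hp2 : p ≠ 2) (M : GQ →* M2 k) (hM : ResHyp p M)
    (hirr : ∀ v : Fin 2 → k, v ≠ 0 → ∃ σ ∈ Dq p, ∀ a : k, (M σ).mulVec v ≠ a • v) :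
    finrank (ZMod p) ↥(Lcond p M (fun ρ' => ρ'.DetIsCyclotomic p ∧ ρ'.IsFlatAt p)
        (pPrime p)) ≤
      finrank (ZMod p) ↥(H0 (rsub (ad0 p M) (DqP (pPrime p)))) + finrank (ZMod p) k := by
  have hp : p.Prime := Fact.out
  have hsm : Smooth Lall (ad0 p M) := Loc.smooth_ad0 p M hM.fin
  have : Finite (M2 k) := inferInstance
  have : FiniteDimensional (ZMod p) (Ad0 p k) := Module.Finite.of_finite
  have hfd : FiniteDimensional (ZMod p) (H1 (Lq p) (rsub (ad0 p M) (Dq p))) := loc_fin1 hp2 _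
  have hfd' : FiniteDimensional (ZMod p)
      (H1 (Lall.sub (DqP (pPrime p))) (rsub (ad0 p M) (DqP (pPrime p)))) := hfd
  by_cases hne : ∃ (ρ' : GaloisRepAdic (DualNumber k)) (z : ↥(Z1 Lall (ad0 p M))),
      (ρ'.DetIsCyclotomic p ∧ ρ'.IsFlatAt p) ∧
      IsClassOf M ρ' (fun σ => (((z : GQ → Ad0 p k) σ : Ad0 p k) : M2 k))
  · obtain ⟨ρ₀, z₀, ⟨-, hfl₀⟩, hc₀⟩ := hne
    obtain ⟨ϖ, hϖ⟩ := IsAlgClosed.exists_pow_nat_eq (-(p : Qbar)) (C.e_pos (p := p))
    have hA : Ann p M ϖ := fun τ hτ P hP =>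
      Tame.annihilate_of_flat hp2 M hM hirr ρ₀ _ hc₀ hfl₀ hϖ hτ P hP
    obtain ⟨S⟩ := exists_setup hp2 M hM hϖ hA
    have hle : Lcond p M (fun ρ' => ρ'.DetIsCyclotomic p ∧ ρ'.IsFlatAt p) (pPrime p) ≤
        Submodule.span (ZMod p)
          {x | ∃ z : ↥(Z1 Lall (ad0 p M)), C.NoLevel ϖ (z : GQ → Ad0 p k) 2 ∧
            C.NoLevel ϖ (z : GQ → Ad0 p k) (p + 1) ∧
            x = (Pair.res Lall (ad0 p M) (DqP (pPrime p))).map1 (H1.mk Lall (ad0 p M) z)} := by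
      refine Submodule.span_mono ?_
      rintro x ⟨ρ', z, ⟨-, hfl⟩, hc, rfl⟩
      obtain ⟨H, hH⟩ := Ram.exists_ord_defAct_top M ρ' _ hc hfl
      refine ⟨z, ?_, ?_, rfl⟩
      · refine K.noLevel hp2 (Ram.nrm_le_one_of_mem_OW ⊤) hH le_top hϖ hA (by norm_num) ?_ ?_
        · intro h
          exact hp2 ((Nat.prime_dvd_prime_iff_eq hp Nat.prime_two).1 h)
        · have := hp.two_le
          omega
      · refine K.noLevel hp2 (Ram.nrm_le_one_of_mem_OW ⊤) hH le_top hϖ hA (Nat.succ_pos p) ?_ le_rfl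
        intro h
        have h1 : p ∣ 1 := (Nat.dvd_add_right (dvd_refl p)).1 h
        exact hp.one_lt.ne' (Nat.dvd_one.1 h1)
    exact (Submodule.finrank_mono hle).trans (C.count_main hp2 hM S)
  · have : Lcond p M (fun ρ' => ρ'.DetIsCyclotomic p ∧ ρ'.IsFlatAt p) (pPrime p) = ⊥ := by
      rw [eq_bot_iff]
      refine Submodule.span_le.2 ?_
      rintro x ⟨ρ', z, hP, hc, rfl⟩
      exact absurd ⟨ρ', z, hP, hc⟩ hne
    rw [this, finrank_bot]
    exact Nat.zero_le _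

end Fermat.Agent.S56.F.Irr

end
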